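import Mathlib

/-!
# The orbit claim for Hermitian matrices over the Eisenstein integers

`x₀ = (a b; b̄ 0)`.  If `N` is sufficiently divisible then every Hermitian matrix
`X ≡ x₀ mod N` with the same determinant lies in the `Γ(N₀)`-orbit of `x₀`.
-/

set_option autoImplicit false

namespace Fermat.Agent.LT.T6

open Matrix

/-- The ring of Eisenstein integers with its conjugation, abstractly. -/
structure Eis (O : Type*) [CommRing O] where
  /-- the third root of unity -/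
  ω : O
  /-- conjugation -/
  c : O →+* O
  rel : ω ^ 2 + ω + 1 = 0
  c_ω : c ω = ω ^ 2
  span : ∀ z : O, ∃ x y : ℤ, z = x + y * ω
  indep : ∀ x y : ℤ, (x : O) + y * ω = 0 → x = 0 ∧ y = 0

namespace Eis

variable {O : Type*} [CommRing O] (E : Eis O)

theorem c_c (z : O) : E.c (E.c z) = z := by
  obtain ⟨x, y, rfl⟩ := E.span z
  simp only [map_add, map_mul, map_intCast, E.c_ω, map_pow]
  have h := E.rel
  linear_combination (y : O) * (E.ω ^ 2 - E.ω) * h

/-- `√-3` -/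
def θ : O := 1 + 2 * E.ω

theorem θ_sq : E.θ ^ 2 = -3 := by
  have h := E.rel
  rw [θ]
  linear_combination 4 * h

theorem c_θ : E.c E.θ = -E.θ := by
  have h := E.rel
  rw [θ]
  simp only [map_add, map_mul, map_one, map_ofNat, E.c_ω]
  linear_combination 2 * h

include E in
theorem cast_inj {x y : ℤ} (h : (x : O) = y) : x = y := by
  have := (E.indep (x - y) 0 (by push_cast; rw [h]; ring)).1
  omega

theorem exists_norm (z : O) : ∃ n : ℤ, z * E.c z = n := by
  obtain ⟨x, y, rfl⟩ := E.span z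
  refine ⟨x ^ 2 - x * y + y ^ 2, ?_⟩
  have h := E.rel
  simp only [map_add, map_mul, map_intCast, E.c_ω]
  push_cast
  linear_combination ((x : O) * y + (y : O) ^ 2 * (E.ω - 1)) * h

theorem exists_int_of_fixed {z : O} (h : E.c z = z) : ∃ n : ℤ, z = n := by
  obtain ⟨x, y, rfl⟩ := E.span z
  simp only [map_add, map_mul, map_intCast, E.c_ω] at h
  have h1 := E.rel
  have h2 := E.indep (-y) (-2 * y) (by push_cast; linear_combination h - (y : O) * h1)
  have h3 : y = 0 := by omega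
  subst h3
  exact ⟨x, by simp⟩

theorem int_dvd {M x y : ℤ} (h : (M : O) ∣ x + y * E.ω) : M ∣ x ∧ M ∣ y := by
  obtain ⟨z, hz⟩ := h
  obtain ⟨p, q, rfl⟩ := E.span z
  have := E.indep (x - M * p) (y - M * q) (by push_cast; linear_combination hz)
  exact ⟨⟨p, by omega⟩, ⟨q, by omega⟩⟩

include E in
theorem int_dvd_int {M x : ℤ} (h : (M : O) ∣ x) : M ∣ x :=
  (E.int_dvd (M := M) (x := x) (y := 0) (by simpa using h)).1

/-- elements of norm one -/
theorem exists_unit {z : O} (h : z * E.c z = 1) :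
    ∃ ε : O, ε ^ 3 = 1 ∧ E.c ε = ε ^ 2 ∧ (z = ε ^ 2 ∨ z = -ε ^ 2) := by
  obtain ⟨x, y, rfl⟩ := E.span z
  have hr := E.rel
  simp only [map_add, map_mul, map_intCast, E.c_ω] at h
  have h1 : x ^ 2 - x * y + y ^ 2 = 1 := by
    apply E.cast_inj
    push_cast
    linear_combination h - ((x : O) * y + (y : O) ^ 2 * (E.ω - 1)) * hr
  have hω3 : E.ω ^ 3 = 1 := by linear_combination (E.ω - 1) * hr
  have hy : y ^ 2 ≤ 1 := by nlinarith [sq_nonneg (2 * x - y), sq_nonneg y]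
  have hx : x ^ 2 ≤ 1 := by nlinarith [sq_nonneg (2 * y - x), sq_nonneg x]
  have hx1 : -1 ≤ x := by nlinarith
  have hx2 : x ≤ 1 := by nlinarith
  have hy1 : -1 ≤ y := by nlinarith
  have hy2 : y ≤ 1 := by nlinarith
  have h6 : (x = 1 ∧ y = 0) ∨ (x = -1 ∧ y = 0) ∨ (x = 0 ∧ y = 1) ∨ (x = 0 ∧ y = -1) ∨
      (x = 1 ∧ y = 1) ∨ (x = -1 ∧ y = -1) := by
    interval_cases x <;> interval_cases y <;> simp_all
  rcases h6 with ⟨rfl, rfl⟩ | ⟨rfl, rfl⟩ | ⟨rfl, rfl⟩ | ⟨rfl, rfl⟩ | ⟨rfl, rfl⟩ | ⟨rfl, rfl⟩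
  · exact ⟨1, by ring, by simp, Or.inl (by simp)⟩
  · exact ⟨1, by ring, by simp, Or.inr (by simp)⟩
  · refine ⟨E.ω ^ 2, by linear_combination (E.ω ^ 3 + 1) * hω3, ?_, Or.inl ?_⟩
    · rw [map_pow, E.c_ω]
    · push_cast; linear_combination -E.ω * hω3
  · refine ⟨E.ω ^ 2, by linear_combination (E.ω ^ 3 + 1) * hω3, ?_, Or.inr ?_⟩
    · rw [map_pow, E.c_ω]
    · push_cast; linear_combination E.ω * hω3
  · exact ⟨E.ω, hω3, E.c_ω, Or.inr (by push_cast; linear_combination hr)⟩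
  · exact ⟨E.ω, hω3, E.c_ω, Or.inl (by push_cast; linear_combination -hr)⟩

/-- the action on Hermitian matrices -/
def act (g X : Matrix (Fin 2) (Fin 2) O) : Matrix (Fin 2) (Fin 2) O := g * X * (g.map E.c)ᵀ

theorem act_mul (g h X : Matrix (Fin 2) (Fin 2) O) : E.act (g * h) X = E.act g (E.act h X) := by
  simp only [act, Matrix.map_mul, Matrix.transpose_mul, Matrix.mul_assoc]

/-- the Hermitian matrix with entries `A, B, D` -/
def herm (A : ℤ) (B : O) (D : ℤ) : Matrix (Fin 2) (Fin 2) O := !![(A : O), B; E.c B, (D : O)]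

theorem act_entries (p q r s A B C D : O) :
    E.act !![p, q; r, s] !![A, B; C, D] =
      !![(p * A + q * C) * E.c p + (p * B + q * D) * E.c q,
        (p * A + q * C) * E.c r + (p * B + q * D) * E.c s;
        (r * A + s * C) * E.c p + (r * B + s * D) * E.c q,
        (r * A + s * C) * E.c r + (r * B + s * D) * E.c s] := by
  ext i j
  fin_cases i <;> fin_cases j <;> simp [act, Matrix.mul_apply, Fin.sum_univ_two]

/-- step (5): an element of `SL₂(O)` which maps `(a b; b̄ 0)` to `(a' b; b̄ 0)` -/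
theorem exists_g2 (a a2 : ℤ) (b : O) (n0 : ℤ) (hn0 : b * E.c b = n0) (Nm x s r1 e : ℤ)
    (h3 : x * s + 3 * n0 * (4 * n0 * Nm) ^ 2 * r1 = 1)
    (h4 : a2 * s - a * x = 4 * n0 * Nm * e) :
    ∃ g : SpecialLinearGroup (Fin 2) O, E.act g (E.herm a b 0) = E.herm a2 b 0 ∧
      (Nm : O) ∣ g 0 0 - x ∧ (Nm : O) ∣ g 0 1 ∧ (Nm : O) ∣ g 1 0 ∧ (Nm : O) ∣ g 1 1 - s := by
  have R1 := E.θ_sq
  have R3 : (x : O) * s + 3 * n0 * (4 * n0 * Nm) ^ 2 * r1 = 1 := by exact_mod_cast congrArg (Int.cast (R := O)) h3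
  have R4 : (a2 : O) * s - a * x = 4 * n0 * Nm * e := by exact_mod_cast congrArg (Int.cast (R := O)) h4
  have hcb := E.c_c b
  rw [← hn0] at R3 R4
  obtain ⟨bb, hbb⟩ : ∃ bb, bb = E.c b := ⟨_, rfl⟩
  rw [← hbb] at hn0 R3 R4 hcb
  let t : O := E.θ
  have ht : E.c t = -t := E.c_θ
  let g11 : O := x + a2 * t * (2 * (b * bb) * Nm * r1)
  let g12 : O := t * b * (4 * (b * bb) * Nm) + 2 * Nm * e * b - a * a2 * t * b * Nm * r1
  let g21 : O := t * bb * (4 * (b * bb) * Nm) * r1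
  let g22 : O := s - a * t * (2 * (b * bb) * Nm * r1)
  have hdet : g11 * g22 - g12 * g21 = 1 := by
    simp only [g11, g12, g21, g22, t]
    linear_combination R3 - (b * bb) * (4 * (b * bb) * Nm) ^ 2 * r1 * R1 +
      2 * E.θ * (b * bb) * Nm * r1 * R4
  have c11 : E.c g11 = x - a2 * t * (2 * (b * bb) * Nm * r1) := by
    simp only [g11, map_add, map_mul, map_intCast, map_ofNat, ht, hcb, ← hbb]
    ring
  have c12 : E.c g12 = -t * bb * (4 * (b * bb) * Nm) + 2 * Nm * e * bb +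
      a * a2 * t * bb * Nm * r1 := by
    simp only [g12, map_add, map_sub, map_mul, map_intCast, map_ofNat, ht, hcb, ← hbb]
    ring
  have c21 : E.c g21 = -t * b * (4 * (b * bb) * Nm) * r1 := by
    simp only [g21, map_mul, map_intCast, map_ofNat, ht, hcb, ← hbb]
    ring
  have c22 : E.c g22 = s + a * t * (2 * (b * bb) * Nm * r1) := by
    simp only [g22, map_sub, map_mul, map_intCast, map_ofNat, ht, hcb, ← hbb]
    ring
  refine ⟨⟨!![g11, g12; g21, g22], by rw [Matrix.det_fin_two_of]; exact hdet⟩, ?_, ?_, ?_, ?_, ?_⟩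
  · rw [herm, herm, ← hbb]
    change E.act !![g11, g12; g21, g22] _ = _
    rw [act_entries, c11, c12, c21, c22]
    have e11 : (g11 * a + g12 * bb) * (x - a2 * t * (2 * (b * bb) * Nm * r1)) +
        (g11 * b + g12 * ((0 : ℤ) : O)) * (-t * bb * (4 * (b * bb) * Nm) + 2 * Nm * e * bb +
          a * a2 * t * bb * Nm * r1) = a2 := by
      simp only [g11, g12, t]
      push_cast
      linear_combination -(x : O) * R4 + (a2 : O) * R3 -
        a2 * (b * bb) * (4 * (b * bb) * Nm) ^ 2 * r1 * R1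
    have e12 : (g11 * a + g12 * bb) * (-t * b * (4 * (b * bb) * Nm) * r1) +
        (g11 * b + g12 * ((0 : ℤ) : O)) * (s + a * t * (2 * (b * bb) * Nm * r1)) = b := by
      simp only [g11, g12, t]
      push_cast
      linear_combination b * R3 - b * (b * bb) * (4 * (b * bb) * Nm) ^ 2 * r1 * R1 +
        b * 2 * E.θ * (b * bb) * Nm * r1 * R4
    have e21 : (g21 * a + g22 * bb) * (x - a2 * t * (2 * (b * bb) * Nm * r1)) +
        (g21 * b + g22 * ((0 : ℤ) : O)) * (-t * bb * (4 * (b * bb) * Nm) + 2 * Nm * e * bb +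
          a * a2 * t * bb * Nm * r1) = bb := by
      simp only [g21, g22, t]
      push_cast
      linear_combination bb * R3 - bb * (b * bb) * (4 * (b * bb) * Nm) ^ 2 * r1 * R1 -
        bb * 2 * E.θ * (b * bb) * Nm * r1 * R4
    have e22 : (g21 * a + g22 * bb) * (-t * b * (4 * (b * bb) * Nm) * r1) +
        (g21 * b + g22 * ((0 : ℤ) : O)) * (s + a * t * (2 * (b * bb) * Nm * r1)) =
          ((0 : ℤ) : O) := by
      simp only [g21, g22, t]
      push_cast
      ring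
    rw [e11, e12, e21, e22]
  · exact ⟨a2 * t * (2 * (b * bb) * r1), by simp [g11]; ring⟩
  · exact ⟨t * b * (4 * (b * bb)) + 2 * e * b - a * a2 * t * b * r1, by simp [g12]; ring⟩
  · exact ⟨t * bb * (4 * (b * bb)) * r1, by simp [g21]; ring⟩
  · exact ⟨-(a * t * (2 * (b * bb) * r1)), by simp [g22]; ring⟩

/-- step (5) for `a = 0` -/
theorem exists_g2z (a2 : ℤ) (b : O) (n0 : ℤ) (hn0 : b * E.c b = n0) (Nm x s r1 e : ℤ)
    (h3 : x * s + 3 * n0 * (2 * n0 * Nm) ^ 2 * r1 = 1)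
    (h4 : a2 * s = 2 * n0 * Nm * e) :
    ∃ g : SpecialLinearGroup (Fin 2) O, E.act g (E.herm 0 b 0) = E.herm a2 b 0 ∧
      (Nm : O) ∣ g 0 0 - x ∧ (Nm : O) ∣ g 0 1 ∧ (Nm : O) ∣ g 1 0 ∧ (Nm : O) ∣ g 1 1 - s := by
  have R1 := E.θ_sq
  have R3 : (x : O) * s + 3 * n0 * (2 * n0 * Nm) ^ 2 * r1 = 1 := by
    exact_mod_cast congrArg (Int.cast (R := O)) h3
  have R4 : (a2 : O) * s = 2 * n0 * Nm * e := by exact_mod_cast congrArg (Int.cast (R := O)) h4
  have hcb := E.c_c b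
  rw [← hn0] at R3 R4
  obtain ⟨bb, hbb⟩ : ∃ bb, bb = E.c b := ⟨_, rfl⟩
  rw [← hbb] at hn0 R3 R4 hcb
  let t : O := E.θ
  have ht : E.c t = -t := E.c_θ
  let g11 : O := x + a2 * t * ((b * bb) * Nm * r1)
  let g12 : O := t * b * (2 * (b * bb) * Nm) + Nm * e * b
  let g21 : O := t * bb * (2 * (b * bb) * Nm) * r1
  have hdet : g11 * s - g12 * g21 = 1 := by
    simp only [g11, g12, g21, t]
    linear_combination R3 - (b * bb) * (2 * (b * bb) * Nm) ^ 2 * r1 * R1 +
      E.θ * (b * bb) * Nm * r1 * R4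
  have c11 : E.c g11 = x - a2 * t * ((b * bb) * Nm * r1) := by
    simp only [g11, map_add, map_mul, map_intCast, ht, hcb, ← hbb]
    ring
  have c12 : E.c g12 = -t * bb * (2 * (b * bb) * Nm) + Nm * e * bb := by
    simp only [g12, map_add, map_mul, map_intCast, map_ofNat, ht, hcb, ← hbb]
    ring
  have c21 : E.c g21 = -t * b * (2 * (b * bb) * Nm) * r1 := by
    simp only [g21, map_mul, map_intCast, map_ofNat, ht, hcb, ← hbb]
    ring
  have c22 : E.c (s : O) = s := map_intCast _ _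
  refine ⟨⟨!![g11, g12; g21, (s : O)], by rw [Matrix.det_fin_two_of]; exact hdet⟩, ?_, ?_, ?_, ?_,
    ?_⟩
  · rw [herm, herm, ← hbb]
    change E.act !![g11, g12; g21, (s : O)] _ = _
    rw [act_entries, c11, c12, c21, c22]
    have e11 : (g11 * ((0 : ℤ) : O) + g12 * bb) * (x - a2 * t * ((b * bb) * Nm * r1)) +
        (g11 * b + g12 * ((0 : ℤ) : O)) * (-t * bb * (2 * (b * bb) * Nm) + Nm * e * bb) = a2 := by
      simp only [g11, g12, t]
      push_cast
      linear_combination -(x : O) * R4 + (a2 : O) * R3 -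
        a2 * (b * bb) * (2 * (b * bb) * Nm) ^ 2 * r1 * R1
    have e12 : (g11 * ((0 : ℤ) : O) + g12 * bb) * (-t * b * (2 * (b * bb) * Nm) * r1) +
        (g11 * b + g12 * ((0 : ℤ) : O)) * s = b := by
      simp only [g11, g12, t]
      push_cast
      linear_combination b * R3 - b * (b * bb) * (2 * (b * bb) * Nm) ^ 2 * r1 * R1 +
        b * E.θ * (b * bb) * Nm * r1 * R4
    have e21 : (g21 * ((0 : ℤ) : O) + s * bb) * (x - a2 * t * ((b * bb) * Nm * r1)) +
        (g21 * b + s * ((0 : ℤ) : O)) * (-t * bb * (2 * (b * bb) * Nm) + Nm * e * bb) = bb := by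
      simp only [g21, t]
      push_cast
      linear_combination bb * R3 - bb * (b * bb) * (2 * (b * bb) * Nm) ^ 2 * r1 * R1 -
        bb * E.θ * (b * bb) * Nm * r1 * R4
    have e22 : (g21 * ((0 : ℤ) : O) + s * bb) * (-t * b * (2 * (b * bb) * Nm) * r1) +
        (g21 * b + s * ((0 : ℤ) : O)) * s = ((0 : ℤ) : O) := by
      simp only [g21, t]
      push_cast
      ring
    rw [e11, e12, e21, e22]
  · exact ⟨a2 * t * ((b * bb) * r1), by simp [g11]; ring⟩
  · exact ⟨t * b * (2 * (b * bb)) + e * b, by simp [g12]; ring⟩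
  · exact ⟨t * bb * (2 * (b * bb)) * r1, by simp [g21]; ring⟩
  · exact ⟨0, by simp⟩

theorem norm_act (p q r s A B D : O) (hA : E.c A = A) (hD : E.c D = D) :
    ((p * A + q * E.c B) * E.c r + (p * B + q * D) * E.c s) *
      E.c ((p * A + q * E.c B) * E.c r + (p * B + q * D) * E.c s) -
    ((p * A + q * E.c B) * E.c p + (p * B + q * D) * E.c q) *
      ((r * A + s * E.c B) * E.c r + (r * B + s * D) * E.c s) =
    (B * E.c B - A * D) * ((p * s - q * r) * E.c (p * s - q * r)) := by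
  simp only [map_add, map_sub, map_mul, E.c_c, hA, hD]
  ring

/-- an element of norm one which is compared with `p / p̄` -/
theorem exists_int_unit {ζ p W : O} {M : ℤ} (hM : 3 ∣ M) (hζ : ζ * E.c ζ = 1)
    (hW : (M : O) ∣ p * W - 1) (h : (M : O) ∣ ζ * E.c p - p) :
    ∃ (ε : O) (x : ℤ), ε ^ 3 = 1 ∧ E.c ε = ε ^ 2 ∧ ζ = ε ^ 2 ∧ (M : O) ∣ ε ^ 2 * p - x ∧
      IsCoprime x M := by
  obtain ⟨ε, h1, h2, h3⟩ := E.exists_unit hζ
  obtain ⟨x, y, hxy⟩ := E.span (ε ^ 2 * p)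
  have hr := E.rel
  have hcu : E.c (ε ^ 2 * p) = ε * E.c p := by
    rw [map_mul, map_pow, h2]
    linear_combination ε * E.c p * h1
  have hcu' : E.c (ε ^ 2 * p) = x + y * E.ω ^ 2 := by
    rw [hxy]
    simp only [map_add, map_mul, map_intCast, E.c_ω]
  have hun : (M : O) ∣ (ε ^ 2 * p) * (ε * W) - 1 := by
    have : (ε ^ 2 * p) * (ε * W) - 1 = p * W - 1 := by linear_combination p * W * h1
    rwa [this]
  obtain ⟨w, hw⟩ := hun
  have hW' : ∃ w1 : O, ε * W = w1 := ⟨_, rfl⟩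
  rcases h3 with h3 | h3
  · have h4 : (M : O) ∣ y + (2 * y : ℤ) * E.ω := by
      have h5 : (y : O) + (2 * y : ℤ) * E.ω = -(ε ^ 2 * (ζ * E.c p - p)) := by
        have : ε ^ 2 * (ζ * E.c p - p) = E.c (ε ^ 2 * p) - ε ^ 2 * p := by
          rw [hcu, h3]
          linear_combination ε * E.c p * h1
        rw [this, hcu', hxy]
        push_cast
        linear_combination (y : O) * hr
      rw [h5]
      exact (Dvd.dvd.mul_left h _).neg_right
    have hMy : M ∣ y := (E.int_dvd h4).1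
    have hux : (M : O) ∣ ε ^ 2 * p - x := by
      obtain ⟨j, rfl⟩ := hMy
      exact ⟨j * E.ω, by rw [hxy]; push_cast; ring⟩
    refine ⟨ε, x, h1, h2, h3, hux, ?_⟩
    obtain ⟨v, hv⟩ := hux
    obtain ⟨t1, t2, ht⟩ := E.span (ε * W)
    have h6 : (M : O) ∣ ((x * t1 - 1 : ℤ) : O) + (x * t2 : ℤ) * E.ω := by
      refine ⟨w - v * (ε * W), ?_⟩
      push_cast
      have : (ε ^ 2 * p) = M * v + x := by linear_combination hv
      rw [this] at hw
      rw [ht] at hw ⊢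
      linear_combination hw
    obtain ⟨j, hj⟩ := (E.int_dvd h6).1
    exact ⟨t1, -j, by linear_combination hj⟩
  · exfalso
    obtain ⟨M', rfl⟩ := hM
    have h4 : ((3 : ℤ) : O) ∣ ((2 * x - y : ℤ) : O) := by
      have h5 : ((2 * x - y : ℤ) : O) = -(ε ^ 2 * (ζ * E.c p - p)) := by
        have : ε ^ 2 * (ζ * E.c p - p) = -(E.c (ε ^ 2 * p) + ε ^ 2 * p) := by
          rw [hcu, h3]
          linear_combination -ε * E.c p * h1
        rw [this, hcu', hxy]
        push_cast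
        linear_combination -(y : O) * hr
      rw [h5]
      refine (Dvd.dvd.mul_left (dvd_trans ?_ h) _).neg_right
      exact ⟨M', by push_cast; ring⟩
    obtain ⟨j, hj⟩ := E.int_dvd_int h4
    have hy : y = 2 * x - 3 * j := by omega
    have hθ := E.θ_sq
    have h6 : ε ^ 2 * p = E.θ * (x + E.θ * j * E.ω) := by
      rw [hxy, hy]
      push_cast
      have : E.θ = 1 + 2 * E.ω := rfl
      linear_combination -(j : O) * E.ω * hθ - (x : O) * this
    have h7 : E.θ * ((x + E.θ * j * E.ω) * (ε * W) + E.θ * M' * w) = 1 := by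
      rw [h6] at hw
      push_cast at hw
      linear_combination hw + (M' : O) * w * hθ
    obtain ⟨n, hn⟩ := E.exists_norm ((x + E.θ * j * E.ω) * (ε * W) + E.θ * M' * w)
    have h8 := congrArg (fun z => z * E.c z) h7
    simp only [map_mul, E.c_θ, map_one] at h8
    have h9 : ((3 * n : ℤ) : O) = (1 : ℤ) := by
      push_cast
      rw [← hn]
      linear_combination h8 + E.c ((x + E.θ * j * E.ω) * (ε * W) + E.θ * M' * w) *
        ((x + E.θ * j * E.ω) * (ε * W) + E.θ * M' * w) * hθ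
    have := E.cast_inj h9
    omega

/-- steps (1)-(4): reduction to `(a' b; b̄ 0)`.  Here `b b̄ = n₀ ≠ 0` and `3 ∣ M`. -/
theorem exists_g1 [IsDomain O] [IsBezout O] (a : ℤ) (b : O) (n0 : ℤ) (hn0 : b * E.c b = n0)
    (hn : n0 ≠ 0) (M : ℤ) (hM : 3 ∣ M) (hM0 : M ≠ 0) (A : ℤ) (B : O) (D : ℤ)
    (hA : 2 * n0 * (n0 * M) ∣ A - a) (hB : ((2 * n0 * (n0 * M) : ℤ) : O) ∣ B - b)
    (hD : 2 * n0 * (n0 * M) ∣ D) (hq : B * E.c B - A * D = n0) :
    ∃ (g : SpecialLinearGroup (Fin 2) O) (x a2 : ℤ), E.act g (E.herm A B D) = E.herm a2 b 0 ∧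
      IsCoprime x M ∧ M ∣ a2 - x ^ 2 * a ∧ (M : O) ∣ g 0 0 - x ∧ (M : O) ∣ g 0 1 ∧
      (M : O) ∣ g 1 0 ∧ (M : O) ∣ x * g 1 1 - 1 := by
  have hb0 : b ≠ 0 := by
    rintro rfl
    rw [zero_mul] at hn0
    exact hn (E.cast_inj (x := n0) (y := 0) (by rw [← hn0]; simp))
  obtain ⟨A1, hA1⟩ := hA
  obtain ⟨B1, hB1⟩ := hB
  obtain ⟨D1, hD1⟩ := hD
  obtain ⟨bb, hbb⟩ : ∃ bb, bb = E.c b := ⟨_, rfl⟩
  have hcbb : E.c bb = b := by rw [hbb, E.c_c]
  rw [← hbb] at hn0
  -- `N₁`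
  obtain ⟨N1, hN1⟩ : ∃ N1 : O, N1 = b * bb * M := ⟨_, rfl⟩
  have hcN1 : E.c N1 = N1 := by
    rw [hN1, map_mul, map_mul, map_intCast, hcbb, ← hbb]
    ring
  have hAO : (A : O) = a + 2 * (b * bb) * N1 * A1 := by
    have := congrArg (Int.cast (R := O)) hA1
    push_cast at this
    rw [hN1]
    linear_combination this - (2 * (M : O) * A1 * (n0 + b * bb)) * hn0
  have hBO : B = b + 2 * (b * bb) * N1 * B1 := by
    push_cast at hB1
    rw [hN1]
    linear_combination hB1 - (2 * (M : O) * B1 * (n0 + b * bb)) * hn0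
  have hDO : (D : O) = 2 * (b * bb) * N1 * D1 := by
    have := congrArg (Int.cast (R := O)) hD1
    push_cast at this
    rw [hN1]
    linear_combination this - (2 * (M : O) * D1 * (n0 + b * bb)) * hn0
  -- the isotropic vector
  obtain ⟨W2, hW2⟩ : ∃ W2 : O, W2 = 1 + bb * N1 * B1 := ⟨_, rfl⟩
  have hW2ne : W2 ≠ 0 := by
    intro h0
    obtain ⟨M', rfl⟩ := hM
    have h1 : ((3 : ℤ) : O) ∣ ((1 : ℤ) : O) := by
      refine ⟨-(bb * (b * bb * M') * B1), ?_⟩
      rw [hW2, hN1] at h0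
      push_cast at h0 ⊢
      linear_combination h0
    have := E.int_dvd_int h1
    omega
  obtain ⟨G, D2, W, hG1, hG2, hcop⟩ : ∃ G D2 W : O, (D1 : O) = G * D2 ∧ W2 = G * W ∧
      IsCoprime D2 W := by
    have hd1 := IsBezout.gcd_dvd_left (D1 : O) W2
    have hd2 := IsBezout.gcd_dvd_right (D1 : O) W2
    obtain ⟨r, s, hrs⟩ := IsBezout.gcd_eq_sum (D1 : O) W2
    obtain ⟨D2, hD2⟩ := hd1
    obtain ⟨W, hW⟩ := hd2
    refine ⟨_, D2, W, hD2, hW, r, s, ?_⟩
    have hG : IsBezout.gcd (D1 : O) W2 ≠ 0 := by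
      intro h0
      apply hW2ne
      rw [hW, h0, zero_mul]
    apply mul_left_cancel₀ hG
    linear_combination hrs - r * hD2 - s * hW
  have hGne : G ≠ 0 := by
    rintro rfl
    exact hW2ne (by rw [hG2, zero_mul])
  have hcopN : IsCoprime W (bb * N1) := ⟨G, -B1, by linear_combination hW2 - hG2⟩
  have hcopb : IsCoprime W bb := hcopN.of_mul_right_left
  have hcopN1 : IsCoprime W N1 := hcopN.of_mul_right_right
  obtain ⟨p, q', hpq⟩ : IsCoprime W (N1 * (bb * N1 * D2)) :=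
    hcopN1.mul_right ((hcopb.mul_right hcopN1).mul_right hcop.symm)
  obtain ⟨q, hq'⟩ : ∃ q, q = N1 * q' := ⟨_, rfl⟩
  obtain ⟨r, hr⟩ : ∃ r, r = -(bb * N1 * D2) := ⟨_, rfl⟩
  have hdet : p * W - q * r = 1 := by
    rw [hq', hr]
    linear_combination hpq
  -- the lower right entry vanishes
  have hcA : E.c (A : O) = A := map_intCast _ _
  have hcD : E.c (D : O) = D := map_intCast _ _
  have h22 : (r * A + W * E.c B) * E.c r + (r * B + W * D) * E.c W = 0 := by
    have hg : 2 * b * G ≠ 0 := by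
      refine mul_ne_zero (mul_ne_zero ?_ hb0) hGne
      intro h2
      have := E.cast_inj (x := 2) (y := 0) (by push_cast; exact h2)
      omega
    have hg' : E.c (2 * b * G) ≠ 0 := by
      intro h0
      apply hg
      rw [← E.c_c (2 * b * G), h0, map_zero]
    have e1 : 2 * b * G * r = -D := by
      rw [hr, hDO, hG1]; ring
    have e2 : 2 * b * G * W = b + B := by
      have : 2 * b * G * W = 2 * b * W2 := by rw [hG2]; ring
      rw [this, hW2, hBO]; ring
    have e1' := congrArg E.c e1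
    have e2' := congrArg E.c e2
    rw [map_mul, map_neg, hcD] at e1'
    rw [map_mul, map_add, ← hbb] at e2'
    have h0 : 2 * b * G * (E.c (2 * b * G) *
        ((r * A + W * E.c B) * E.c r + (r * B + W * D) * E.c W)) = 0 := by
      have : 2 * b * G * (E.c (2 * b * G) *
          ((r * A + W * E.c B) * E.c r + (r * B + W * D) * E.c W)) =
          ((2 * b * G * r) * A + (2 * b * G * W) * E.c B) * (E.c (2 * b * G) * E.c r) +
          ((2 * b * G * r) * B + (2 * b * G * W) * D) * (E.c (2 * b * G) * E.c W) := by ring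
      rw [this, e1, e2, e1', e2']
      linear_combination -(D : O) * hq + (D : O) * hn0
    exact (mul_eq_zero.1 ((mul_eq_zero.1 h0).resolve_left hg)).resolve_left hg'
  -- the upper right entry
  obtain ⟨b2, hb2⟩ : ∃ b2, b2 = (p * A + q * E.c B) * E.c r + (p * B + q * D) * E.c W := ⟨_, rfl⟩
  obtain ⟨a2, ha2⟩ : ∃ a2, a2 = (p * A + q * E.c B) * E.c p + (p * B + q * D) * E.c q := ⟨_, rfl⟩
  have hnorm : b2 * E.c b2 = n0 := by
    have h1 := E.norm_act p q r W A B D hcA hcD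
    rw [h22, hdet, ← hb2, ← ha2, map_one, hq] at h1
    linear_combination h1
  have hcr : E.c r = -(b * N1 * E.c D2) := by
    rw [hr]; simp only [map_neg, map_mul, hcbb, hcN1]
  have hcq : E.c q = N1 * E.c q' := by rw [hq', map_mul, hcN1]
  obtain ⟨ζ, hζ⟩ : ∃ ζ, ζ = p * E.c W + bb * M * ((p * A + q * E.c B) * -(b * E.c D2) +
      (p * (2 * (b * bb) * B1) + q' * D) * E.c W) := ⟨_, rfl⟩
  have hb2ζ : b2 = b * ζ := by
    rw [hb2, hζ, hcr]
    have : (p * B + q * D) * E.c W = p * (b + 2 * (b * bb) * N1 * B1) * E.c W +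
        N1 * q' * D * E.c W := by rw [hq', ← hBO]; ring
    rw [this]
    have hN1' := hN1
    linear_combination (-(p * A + q * E.c B) * (b * E.c D2) +
      (p * (2 * (b * bb) * B1) + q' * D) * E.c W) * hN1'
  have hζ1 : ζ * E.c ζ = 1 := by
    apply mul_left_cancel₀ (mul_ne_zero hb0 (show bb ≠ 0 from fun h => hb0 (by
      rw [← hcbb, h, map_zero])))
    rw [hb2ζ, map_mul, ← hbb, ← hn0] at hnorm
    linear_combination hnorm
  have hMN1 : (M : O) ∣ N1 := ⟨b * bb, by rw [hN1]; ring⟩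
  have hpW : (M : O) ∣ p * W - 1 := by
    have : p * W - 1 = N1 * (q' * r) := by linear_combination hdet + r * hq'
    rw [this]
    exact hMN1.mul_right _
  have hζp : (M : O) ∣ ζ * E.c p - p := by
    obtain ⟨j, hj⟩ := hpW
    have hj' := congrArg E.c hj
    simp only [map_sub, map_mul, map_one, map_intCast] at hj'
    refine ⟨p * E.c j + E.c p * bb * ((p * A + q * E.c B) * -(b * E.c D2) +
      (p * (2 * (b * bb) * B1) + q' * D) * E.c W), ?_⟩
    rw [hζ]
    linear_combination p * hj'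
  obtain ⟨ε, x, hε3, hcε, hζε, hux, hx⟩ := E.exists_int_unit hM hζ1 hpW hζp
  -- the entry `a2`
  have hca2 : E.c a2 = a2 := by
    rw [ha2]
    simp only [map_add, map_mul, E.c_c, hcA, hcD]
    ring
  obtain ⟨a2z, ha2z⟩ := E.exists_int_of_fixed hca2
  have hMa2 : M ∣ a2z - x ^ 2 * a := by
    apply E.int_dvd_int
    obtain ⟨v, hv⟩ := hux
    have hv' := congrArg E.c hv
    simp only [map_sub, map_mul, map_pow, map_intCast, hcε] at hv'
    obtain ⟨n, hn1⟩ := hMN1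
    have hpp : p * E.c p = (x + M * v) * (x + M * E.c v) := by
      have e1 : ε ^ 2 * p = x + M * v := by linear_combination hv
      have e2 : (ε ^ 2) ^ 2 * E.c p = x + M * E.c v := by linear_combination hv'
      rw [← e1, ← e2]
      linear_combination -(p * E.c p * (ε ^ 3 + 1)) * hε3
    have e3 : a2 = p * E.c p * A + N1 * (q' * E.c B * E.c p + (p * B + q * D) * E.c q') := by
      rw [ha2, hcq, hq']; ring
    refine ⟨n * (q' * E.c B * E.c p + (p * B + q * D) * E.c q') +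
      (2 * (b * bb) * n * A1) * (p * E.c p) + a * (v * x + x * E.c v + M * v * E.c v), ?_⟩
    push_cast
    rw [← ha2z, e3, hAO, hn1, hpp]
    ring
  -- the matrix
  have hdet' : (!![ε ^ 2 * p, ε ^ 2 * q; ε * r, ε * W] : Matrix (Fin 2) (Fin 2) O).det = 1 := by
    rw [Matrix.det_fin_two_of]
    linear_combination ε ^ 3 * hdet + hε3
  refine ⟨⟨_, hdet'⟩, x, a2z, ?_, hx, hMa2, hux, ?_, ?_, ?_⟩
  · change E.act !![ε ^ 2 * p, ε ^ 2 * q; ε * r, ε * W] (E.herm A B D) = _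
    rw [herm, herm, act_entries]
    simp only [map_mul, map_pow, hcε]
    have f11 : (ε ^ 2 * p * A + ε ^ 2 * q * E.c B) * ((ε ^ 2) ^ 2 * E.c p) +
        (ε ^ 2 * p * B + ε ^ 2 * q * D) * ((ε ^ 2) ^ 2 * E.c q) = (a2z : O) := by
      rw [← ha2z, ha2]
      linear_combination (ε ^ 3 + 1) * ((p * A + q * E.c B) * E.c p +
        (p * B + q * D) * E.c q) * hε3
    have f12 : (ε ^ 2 * p * A + ε ^ 2 * q * E.c B) * (ε ^ 2 * E.c r) +
        (ε ^ 2 * p * B + ε ^ 2 * q * D) * (ε ^ 2 * E.c W) = b := by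
      have : ε ^ 4 * b2 = b := by
        rw [hb2ζ, hζε]
        linear_combination (ε ^ 3 + 1) * b * hε3
      rw [← this, hb2]; ring
    have f22 : (ε * r * A + ε * W * E.c B) * (ε ^ 2 * E.c r) +
        (ε * r * B + ε * W * D) * (ε ^ 2 * E.c W) = ((0 : ℤ) : O) := by
      push_cast
      linear_combination ε ^ 3 * h22
    have f21 : (ε * r * A + ε * W * E.c B) * ((ε ^ 2) ^ 2 * E.c p) +
        (ε * r * B + ε * W * D) * ((ε ^ 2) ^ 2 * E.c q) = E.c b := by
      have := congrArg E.c f12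
      simp only [map_add, map_mul, map_pow, hcε, E.c_c, hcA, hcD] at this
      rw [← this]
      linear_combination (-(ε ^ 2) * ε ^ 3 * (r * A * E.c p + W * E.c B * E.c p + r * B * E.c q +
        W * D * E.c q)) * hε3
    rw [f11, f12, f21, f22]
  · change (M : O) ∣ ε ^ 2 * q
    exact (hMN1.mul_right q').trans ⟨ε ^ 2, by rw [hq']; ring⟩
  · change (M : O) ∣ ε * r
    exact (hMN1.mul_right (bb * D2)).trans ⟨-ε, by rw [hr]; ring⟩
  · change (M : O) ∣ x * (ε * W) - 1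
    obtain ⟨v, hv⟩ := hux
    obtain ⟨j, hj⟩ := hpW
    refine ⟨j - v * (ε * W), ?_⟩
    linear_combination -(ε * W) * hv + hj + p * W * hε3

theorem combine (g1 g2 : SpecialLinearGroup (Fin 2) O) (X Y Z : Matrix (Fin 2) (Fin 2) O)
    (Nm M x s r : ℤ) (hM : Nm ∣ M) (hxs : x * s + M * r = 1)
    (h1 : E.act g1 X = Y) (h2 : E.act g2 Z = Y)
    (k00 : (M : O) ∣ g1 0 0 - x) (k01 : (M : O) ∣ g1 0 1) (k10 : (M : O) ∣ g1 1 0)
    (k11 : (M : O) ∣ x * g1 1 1 - 1)
    (l00 : (Nm : O) ∣ g2 0 0 - x) (l01 : (Nm : O) ∣ g2 0 1) (l10 : (Nm : O) ∣ g2 1 0)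
    (l11 : (Nm : O) ∣ g2 1 1 - s) :
    ∃ g : SpecialLinearGroup (Fin 2) O,
      (∀ i j, (Nm : O) ∣ g i j - (1 : Matrix (Fin 2) (Fin 2) O) i j) ∧ E.act g Z = X := by
  have hMO : (Nm : O) ∣ (M : O) := by
    obtain ⟨j, rfl⟩ := hM
    exact ⟨j, by push_cast; ring⟩
  have hxsO : (x : O) * s + M * r = 1 := by
    exact_mod_cast congrArg (Int.cast (R := O)) hxs
  obtain ⟨m, hm⟩ := hMO
  obtain ⟨a00, ha00⟩ := k00
  obtain ⟨a01, ha01⟩ := k01
  obtain ⟨a10, ha10⟩ := k10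
  obtain ⟨a11, ha11⟩ := k11
  obtain ⟨b00, hb00⟩ := l00
  obtain ⟨b01, hb01⟩ := l01
  obtain ⟨b10, hb10⟩ := l10
  obtain ⟨b11, hb11⟩ := l11
  rw [hm] at ha00 ha01 ha10 ha11 hxsO
  have e1 : g2 0 0 = x + Nm * b00 := by linear_combination hb00
  have e2 : g2 1 1 = s + Nm * b11 := by linear_combination hb11
  have e3 : g1 0 0 = x + Nm * m * a00 := by linear_combination ha00
  refine ⟨g1⁻¹ * g2, ?_, ?_⟩
  · intro i j
    rw [Matrix.SpecialLinearGroup.coe_mul, Matrix.SpecialLinearGroup.coe_inv,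
      Matrix.adjugate_fin_two]
    fin_cases i <;> fin_cases j
    · simp only [Fin.zero_eta, Fin.isValue, Matrix.mul_apply, Fin.sum_univ_two, Matrix.of_apply,
        Matrix.cons_val', Matrix.cons_val_zero, Matrix.cons_val_one, Matrix.cons_val_fin_one,
        Matrix.one_apply_eq]
      refine ⟨m * a11 + b00 * g1 1 1 - m * a01 * g2 1 0, ?_⟩
      rw [ha01, e1]
      linear_combination ha11
    · simp only [Fin.zero_eta, Fin.mk_one, Fin.isValue, Matrix.mul_apply, Fin.sum_univ_two,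
        Matrix.of_apply, Matrix.cons_val', Matrix.cons_val_zero, Matrix.cons_val_one,
        Matrix.cons_val_fin_one, ne_eq, zero_ne_one, not_false_eq_true, Matrix.one_apply_ne]
      refine ⟨g1 1 1 * b01 - m * a01 * g2 1 1, ?_⟩
      rw [ha01, hb01]
      ring
    · simp only [Fin.zero_eta, Fin.mk_one, Fin.isValue, Matrix.mul_apply, Fin.sum_univ_two,
        Matrix.of_apply, Matrix.cons_val', Matrix.cons_val_zero, Matrix.cons_val_one,
        Matrix.cons_val_fin_one, ne_eq, one_ne_zero, not_false_eq_true, Matrix.one_apply_ne]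
      refine ⟨-(m * a10) * g2 0 0 + g1 0 0 * b10, ?_⟩
      rw [ha10, hb10]
      ring
    · simp only [Fin.mk_one, Fin.isValue, Matrix.mul_apply, Fin.sum_univ_two, Matrix.of_apply,
        Matrix.cons_val', Matrix.cons_val_zero, Matrix.cons_val_one, Matrix.cons_val_fin_one,
        Matrix.one_apply_eq]
      refine ⟨-(m * a10) * g2 0 1 + x * b11 + m * a00 * g2 1 1 - m * r, ?_⟩
      rw [ha10, e3]
      linear_combination hxsO + (x : O) * hb11
  · rw [Matrix.SpecialLinearGroup.coe_mul, act_mul, h2, ← h1, ← act_mul,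
      ← Matrix.SpecialLinearGroup.coe_mul, inv_mul_cancel, Matrix.SpecialLinearGroup.coe_one]
    simp [act, Matrix.map_one]

/-- **The orbit claim.**  `b b̄ = n₀ ≠ 0`, `3 ∣ N₀`, modulus `8 n₀³ N₀`. -/
theorem exists_orb [IsDomain O] [IsBezout O] (a : ℤ) (b : O) (n0 : ℤ) (hn0 : b * E.c b = n0)
    (hn : n0 ≠ 0) (Nm : ℤ) (h3 : 3 ∣ Nm) (hNm : Nm ≠ 0) (A : ℤ) (B : O) (D : ℤ)
    (hA : 8 * n0 ^ 3 * Nm ∣ A - a) (hB : ((8 * n0 ^ 3 * Nm : ℤ) : O) ∣ B - b)
    (hD : 8 * n0 ^ 3 * Nm ∣ D) (hq : B * E.c B - A * D = n0) :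
    ∃ g : SpecialLinearGroup (Fin 2) O,
      (∀ i j, (Nm : O) ∣ g i j - (1 : Matrix (Fin 2) (Fin 2) O) i j) ∧
        E.act g (E.herm a b 0) = E.herm A B D := by
  have hMM : 2 * n0 * (n0 * (4 * n0 * Nm)) = 8 * n0 ^ 3 * Nm := by ring
  obtain ⟨g1, x, a2, h1, hx, ha2, k00, k01, k10, k11⟩ := E.exists_g1 a b n0 hn0 hn (4 * n0 * Nm)
    (h3.mul_left _) (by positivity) A B D (by rwa [hMM]) (by rwa [hMM]) (by rwa [hMM]) hq
  have hx3 : IsCoprime x 3 := hx.of_isCoprime_of_dvd_right (h3.mul_left _)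
  have hxn : IsCoprime x n0 := hx.of_isCoprime_of_dvd_right ⟨4 * Nm, by ring⟩
  obtain ⟨s, r1, hsr⟩ : IsCoprime x (3 * n0 * (4 * n0 * Nm) ^ 2) :=
    (hx3.mul_right hxn).mul_right hx.pow_right
  obtain ⟨j, hj⟩ := ha2
  have h3' : x * s + 3 * n0 * (4 * n0 * Nm) ^ 2 * r1 = 1 := by linear_combination hsr
  obtain ⟨g2, h2, l00, l01, l10, l11⟩ := E.exists_g2 a a2 b n0 hn0 Nm x s r1
    (j * s - x * a * (3 * n0 * (4 * n0 * Nm) * r1)) h3'
    (by linear_combination s * hj + x * a * h3')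
  exact E.combine g1 g2 _ _ _ Nm (4 * n0 * Nm) x s (3 * n0 * (4 * n0 * Nm) * r1)
    (Dvd.intro_left _ rfl) (by linear_combination h3') h1 h2 k00 k01 k10 k11 l00 l01 l10 l11

/-- **The orbit claim for `(0 1; 1 0)`.** -/
theorem exists_orb_one [IsDomain O] [IsBezout O] (Nm : ℤ) (h3 : 3 ∣ Nm) (hNm : Nm ≠ 0)
    (A : ℤ) (B : O) (D : ℤ) (hA : 4 * Nm ∣ A) (hB : ((4 * Nm : ℤ) : O) ∣ B - 1)
    (hD : 4 * Nm ∣ D) (hq : B * E.c B - A * D = 1) :
    ∃ g : SpecialLinearGroup (Fin 2) O,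
      (∀ i j, (Nm : O) ∣ g i j - (1 : Matrix (Fin 2) (Fin 2) O) i j) ∧
        E.act g (E.herm 0 1 0) = E.herm A B D := by
  have hMM : 2 * 1 * (1 * (2 * Nm)) = 4 * Nm := by ring
  obtain ⟨g1, x, a2, h1, hx, ha2, k00, k01, k10, k11⟩ := E.exists_g1 0 1 1 (by simp) one_ne_zero
    (2 * Nm) (h3.mul_left _) (by positivity) A B D (by rwa [hMM, sub_zero]) (by rwa [hMM])
    (by rwa [hMM]) (by push_cast; exact hq)
  have hx3 : IsCoprime x 3 := hx.of_isCoprime_of_dvd_right (h3.mul_left _)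
  obtain ⟨s, r1, hsr⟩ : IsCoprime x (3 * (2 * Nm) ^ 2) := hx3.mul_right hx.pow_right
  obtain ⟨j, hj⟩ := ha2
  have h3' : x * s + 3 * 1 * (2 * 1 * Nm) ^ 2 * r1 = 1 := by linear_combination hsr
  obtain ⟨g2, h2, l00, l01, l10, l11⟩ := E.exists_g2z a2 1 1 (by simp) Nm x s r1
    (j * s) h3' (by linear_combination s * hj)
  exact E.combine g1 g2 _ _ _ Nm (2 * Nm) x s (3 * (2 * Nm) * r1)
    (Dvd.intro_left _ rfl) (by linear_combination h3') h1 h2 k00 k01 k10 k11 l00 l01 l10 l11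

end Eis

end Fermat.Agent.LT.T6
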